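import Fermat.Agent.Tate.JInput
import Fermat.Agent.NewPoint.OfChar

/-!
# Eigenforms with integral eigenvalues from torsion points of `J₀(N)`
-/

set_option autoImplicit false

noncomputable section

open ModularCurve ModularCurve.Period CongruenceSubgroup CuspForm ModularFormClass
open scoped MatrixGroups

namespace Fermat.Agent.ZEnd

open Fermat.Agent.HeckeHom Fermat.Agent.TorsCmp Fermat.Agent.Tate Fermat.Agent.Tate.TateInput

variable (N : ℕ) [NeZero N] (p : ℕ) [Fact p.Prime]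

/-- the components of an element of the Tate module -/
abbrev prJ (n : ℕ) : Lam p N →+ tor p (JZero N) n :=
  pr (comparisonJ N p) (Lam p N) (comparisonJ_mem_iff N p) n

theorem prJ_parHecke {ℓ : ℕ} (hℓ : ℓ.Prime) (hℓN : ¬ ℓ ∣ N) (n : ℕ) (φ : Lam p N) :
    (prJ N p n (parHecke ℤ_[p] ℤ_[p] hℓ hℓN φ) : JZero N) =
      heckeOperatorBar N ⟨ℓ, hℓ⟩ (prJ N p n φ) := by
  have h : prJ N p n (parHecke ℤ_[p] ℤ_[p] hℓ hℓN φ) =
      ⟨heckeOperatorBar N ⟨ℓ, hℓ⟩ (prJ N p n φ), map_mem_tor p _ (prJ N p n φ).2⟩ := by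
    refine (pr_eq_iff (comparisonJ N p) (Lam p N) (comparisonJ_mem_iff N p) n _ _).mpr ?_
    rw [comparisonJ_hecke N p hℓ hℓN n (prJ N p n φ) _ rfl,
      e_pr (comparisonJ N p) (Lam p N) (comparisonJ_mem_iff N p) n φ]
    exact heckeHom_comp hℓ hℓN ((PadicInt.toZModPow n : ℤ_[p] →+* ZMod (p ^ n)) :
      ℤ_[p] →+ ZMod (p ^ n)) _
  rw [h]

/-- Every torsion point is a component of an element of the Tate module. -/
theorem exists_prJ_eq (n : ℕ) (x : tor p (JZero N) n) : ∃ φ : Lam p N, prJ N p n φ = x := by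
  obtain ⟨y, hy, hyn⟩ := exists_compatible iotaQbar N p n x
  obtain ⟨φ, hφ⟩ := exists_lim (comparisonJ N p) (Lam p N) (comparisonJ_mem_iff N p) y hy
  exact ⟨φ, (hφ n).trans hyn⟩

variable {N p}

/-- the action of the Hecke algebra on an eigenvector in `J[p ^ n]` -/
theorem prJ_actPar (S : Set ℕ) (a : ℕ → ℤ) (n : ℕ) (x : JZero N)
    (hx : ∀ (ℓ : ℕ) (hℓ : ℓ.Prime), ¬ ℓ ∣ N → ℓ ∉ S → heckeOperatorBar N ⟨ℓ, hℓ⟩ x = a ℓ • x)
    (t : FreeAlgebra ℤ (Idx N S)) : ∀ (φ : Lam p N) (m : ℤ), (prJ N p n φ : JZero N) = m • x →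
      (prJ N p n (actPar N S ℤ_[p] ℤ_[p] t φ) : JZero N) =
      (FreeAlgebra.lift ℤ (fun i : Idx N S => a i.1) t * m) • x := by
  induction t using FreeAlgebra.induction with
  | grade0 r =>
    intro φ m hφ
    rw [AlgHom.commutes, AlgHom.commutes, Module.algebraMap_end_apply, map_zsmul,
      AddSubgroup.coe_zsmul, hφ, ← mul_smul]
    rfl
  | grade1 i =>
    intro φ m hφ
    rw [actPar, FreeAlgebra.lift_ι_apply, FreeAlgebra.lift_ι_apply]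
    rw [prJ_parHecke, hφ, map_zsmul, hx i.1 i.2.1 i.2.2.1 i.2.2.2, ← mul_smul, mul_comm]
  | mul s t hs ht =>
    intro φ m hφ
    rw [map_mul, map_mul, mul_assoc]
    exact hs _ _ (ht _ _ hφ)
  | add s t hs ht =>
    intro φ m hφ
    rw [map_add, map_add, LinearMap.add_apply, map_add, AddSubgroup.coe_add, hs _ _ hφ, ht _ _ hφ,
      add_mul]
    exact (add_zsmul x _ _).symm

theorem int_eq_zero_of_forall_pow_dvd {p : ℕ} (hp : p.Prime) {m : ℤ}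
    (h : ∀ b : ℕ, ((p ^ (b + 1) : ℕ) : ℤ) ∣ m) : m = 0 := by
  apply Int.eq_zero_of_abs_lt_dvd (h m.natAbs)
  rw [Int.abs_eq_natAbs]
  have : m.natAbs < p ^ (m.natAbs + 1) :=
    (Nat.lt_succ_self _).trans (Nat.lt_pow_self hp.one_lt)
  exact_mod_cast this

/-- **Z-END.** If for every `b` there is a point of exact order `p ^ (b + 1)` on `J₀(N)` which is
an eigenvector of the Hecke operators with eigenvalues `a_ℓ ∈ ℤ` (independent of `b`), then the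
`a_ℓ` are the eigenvalues of a normalised eigenform. -/
theorem exists_eigenform_of_torsion (S : Set ℕ) (a : ℕ → ℤ)
    (h : ∀ b : ℕ, ∃ x : JZero N, p ^ (b + 1) • x = 0 ∧ p ^ b • x ≠ 0 ∧
      ∀ (ℓ : ℕ) (hℓ : ℓ.Prime), ¬ ℓ ∣ N → ℓ ∉ S → heckeOperatorBar N ⟨ℓ, hℓ⟩ x = a ℓ • x) :
    ∃ f : CuspForm (Gamma0 N) 2, f.IsNormalizedEigenform ∧
      ∀ (ℓ : ℕ), ℓ.Prime → ¬ ℓ ∣ N → ℓ ∉ S → qCoeff f ℓ = (a ℓ : ℂ) := by
  have hES : ES N := es N
  let S' : Set ℕ := S ∪ {q | q ∣ N}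
  have hS' : ∀ q : ℕ, q.Prime → q ∣ N → q ∈ S' := fun q _ hq => Or.inr hq
  let ψ₀ : FreeAlgebra ℤ (Idx N S') →ₐ[ℤ] ℤ := FreeAlgebra.lift ℤ (fun i : Idx N S' => a i.1)
  have hker : RingHom.ker (toHecke hS').toRingHom ≤ RingHom.ker ψ₀.toRingHom := by
    intro t ht
    have ht0 : toHecke hS' t = 0 := ht
    have hact : actPar N S' ℤ_[p] ℤ_[p] t = 0 := by
      rw [← theta_toHecke hES hS', ht0, map_zero]
    show ψ₀ t = 0
    refine int_eq_zero_of_forall_pow_dvd (Fact.out : p.Prime) fun b => ?_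
    obtain ⟨x, hx1, hx2, hx3⟩ := h b
    obtain ⟨φ, hφ⟩ := exists_prJ_eq N p (b + 1) ⟨x, (mem_tor p).mpr hx1⟩
    have h1 := prJ_actPar S' a (b + 1) x (fun ℓ hℓ hℓN hℓS => hx3 ℓ hℓ hℓN fun h => hℓS (Or.inl h))
      t φ 1 (by rw [hφ, one_smul])
    rw [hact, LinearMap.zero_apply, map_zero, AddSubgroup.coe_zero, mul_one] at h1
    rw [← addOrderOf_eq_prime_pow hx2 hx1, addOrderOf_dvd_iff_zsmul_eq_zero]
    exact h1.symm
  let ψ : heckeAlgebra N 2 S' →+* ℤ :=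
    (toHecke hS').toRingHom.liftOfSurjective (toHecke_surjective hS') ⟨ψ₀.toRingHom, hker⟩
  have hψ : ∀ t, ψ (toHecke hS' t) = ψ₀ t := fun t =>
    RingHom.liftOfRightInverse_comp_apply _ _ _ _ t
  obtain ⟨f, hf, -, hfT, -⟩ := Fermat.Agent.NewPoint.exists_eigenform_of_char
    ((Int.castRingHom ℂ).comp ψ)
  refine ⟨f, hf, fun ℓ hℓ hℓN hℓS => ?_⟩
  have hℓS' : ℓ ∉ S' := by
    rintro (h | h)
    · exact hℓS h
    · exact hℓN h
  rw [hfT ℓ hℓ hℓN hℓS', RingHom.comp_apply, ← toHecke_ι hS' hℓ hℓN hℓS', hψ]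
  have : ψ₀ (FreeAlgebra.ι ℤ ⟨ℓ, hℓ, hℓN, hℓS'⟩) = a ℓ := FreeAlgebra.lift_ι_apply _ _
  rw [this]
  rfl

/-- Modularity of a model from torsion points of `J₀(N)`. -/
theorem isModularModelOfLevel_of_torsion (W : WeierstrassCurve ℤ)
    (h : ∀ b : ℕ, ∃ x : JZero N, p ^ (b + 1) • x = 0 ∧ p ^ b • x ≠ 0 ∧
      ∀ (ℓ : ℕ) (hℓ : ℓ.Prime), ¬ ℓ ∣ N → W.IsGoodPrimeFor ℓ →
        heckeOperatorBar N ⟨ℓ, hℓ⟩ x = W.apOfModel ℓ • x) :
    W.IsModularModelOfLevel N := by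
  obtain ⟨f, hf, hfa⟩ := exists_eigenform_of_torsion (N := N) (p := p)
    {ℓ | ¬ W.IsGoodPrimeFor ℓ} (fun ℓ => W.apOfModel ℓ) (by
      intro b
      obtain ⟨x, h1, h2, h3⟩ := h b
      exact ⟨x, h1, h2, fun ℓ hℓ hℓN hℓS => h3 ℓ hℓ hℓN (not_not.mp hℓS)⟩)
  exact ⟨f, hf, fun ℓ hℓ hg hℓN => hfa ℓ hℓ hℓN (not_not.mpr hg)⟩

end Fermat.Agent.ZEnd
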