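import Mathlib
import Fermat.Agent.ExtVan.LiftInertia

/-!
# The decomposition group is generated by Frobenius and inertia (at finite level)
-/

set_option autoImplicit false

open scoped Pointwise
open Fermat.Agent.Frob

namespace Fermat.Agent.ZEnd

lemma exists_pow_card_of_finite {F κ : Type*} [Field F] [Fintype F] [Field κ] [Algebra F κ]
    [Algebra.IsAlgebraic F κ] (τ : κ ≃ₐ[F] κ) (S : Set κ) (hS : S.Finite) :
    ∃ n : ℕ, ∀ y ∈ IntermediateField.adjoin F S, τ y = y ^ (Fintype.card F ^ n) := by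
  let E := IntermediateField.adjoin F S
  have : Finite S := hS
  have : FiniteDimensional F E :=
    IntermediateField.finiteDimensional_adjoin (fun x _ => Algebra.IsIntegral.isIntegral x)
  have : Finite E := Module.finite_of_finite F
  obtain ⟨n, hn⟩ := (FiniteField.bijective_frobeniusAlgEquivOfAlgebraic_pow F E).2
    (τ.restrictNormal E)
  refine ⟨n, fun y hy => ?_⟩
  have h1 := AlgEquiv.restrictNormal_commutes τ E ⟨y, hy⟩
  rw [← hn] at h1
  have h2 : ∀ (m : ℕ) (z : E), (FiniteField.frobeniusAlgEquivOfAlgebraic F E ^ m) z =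
      z ^ (Fintype.card F ^ m) := by
    intro m
    induction m with
    | zero => intro z; simp
    | succ m ih =>
      intro z
      rw [pow_succ', AlgEquiv.mul_apply, ih, FiniteField.coe_frobeniusAlgEquivOfAlgebraic]
      dsimp only
      rw [← pow_mul, pow_succ]
  simp only [h2] at h1
  exact h1.symm

attribute [-instance] DivisionRing.toRatAlgebra

variable {Ω : Type*} [Field Ω] [Algebra ℚ Ω] [IsGalois ℚ Ω]

omit [IsGalois ℚ Ω] in
lemma isFrobeniusAt_smul_sub {A : ValuationSubring Ω} {ℓ : ℕ} {Φ : Ω ≃ₐ[ℚ] Ω}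
    (hΦ : A.IsFrobeniusAt Φ ℓ) (b : integralClosure ℤ Ω) : Φ • b - b ^ ℓ ∈ center A := by
  obtain ⟨hσ, h⟩ := hΦ
  have h1 := h (IsLocalRing.residue A (toVal A b))
  rw [← IsLocalRing.ResidueField.residue_smul, smul_toVal, ← map_pow, ← map_pow, ← sub_eq_zero,
    ← map_sub, ← map_sub, IsLocalRing.residue_eq_zero_iff] at h1
  exact h1

omit [IsGalois ℚ Ω] in
lemma smul_center_eq {A : ValuationSubring Ω} {τ : Ω ≃ₐ[ℚ] Ω} (hτ : τ • A = A) :
    τ • center A = center A := by
  rw [← center_smul, hτ]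

omit [IsGalois ℚ Ω] in
lemma smul_mem_center {A : ValuationSubring Ω} {τ : Ω ≃ₐ[ℚ] Ω} (hτ : τ • A = A)
    {b : integralClosure ℤ Ω} (hb : b ∈ center A) : τ • b ∈ center A := by
  have := Ideal.smul_mem_pointwise_smul τ b (center A) hb
  rwa [smul_center_eq hτ] at this

omit [IsGalois ℚ Ω] in
lemma isFrobeniusAt_pow_smul_sub {A : ValuationSubring Ω} {ℓ : ℕ} {Φ : Ω ≃ₐ[ℚ] Ω}
    (hΦ : A.IsFrobeniusAt Φ ℓ) (n : ℕ) (b : integralClosure ℤ Ω) :
    Φ ^ n • b - b ^ (ℓ ^ n) ∈ center A := by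
  have hA : Φ • A = A := hΦ.mem_decompositionSubgroup
  induction n with
  | zero => simp
  | succ n ih =>
    have h1 := smul_mem_center hA ih
    rw [smul_sub, smul_pow', ← mul_smul, ← pow_succ'] at h1
    have h2 := isFrobeniusAt_smul_sub hΦ b
    have h3 : (Φ • b) ^ (ℓ ^ n) - (b ^ ℓ) ^ (ℓ ^ n) ∈ center A :=
      Ideal.mem_of_dvd _ (sub_dvd_pow_sub_pow _ _ _) h2
    have h4 := (center A).add_mem h1 h3
    rw [sub_add_sub_cancel, ← pow_mul, ← pow_succ'] at h4
    exact h4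

/-- Every element of the decomposition group induces, on the residues of the integers of a finite
extension, a power of the Frobenius. -/
theorem exists_pow_smul_sub {A : ValuationSubring Ω} {ℓ : ℕ} (hℓ : ℓ.Prime)
    (hA : A.LiesOverPrime ℓ) {τ : Ω ≃ₐ[ℚ] Ω} (hτ : τ • A = A) (L : IntermediateField ℚ Ω)
    [FiniteDimensional ℚ L] : ∃ n : ℕ, ∀ x : integralClosure ℤ Ω, (x : Ω) ∈ L →
      τ • x - x ^ (ℓ ^ n) ∈ center A := by
  let P : Ideal ℤ := Ideal.span {(ℓ : ℤ)}
  have hP : P.IsMaximal := span_isMaximal hℓ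
  have hover : (center A).LiesOver P := center_liesOver hℓ hA
  have hmax : (center A).IsMaximal := center_isMaximal hℓ hA
  let _ : Field (ℤ ⧸ P) := Ideal.Quotient.field P
  let _ : Field (integralClosure ℤ Ω ⧸ center A) := Ideal.Quotient.field (center A)
  have : Fact ℓ.Prime := ⟨hℓ⟩
  let e : ZMod ℓ ≃+* ℤ ⧸ P := (Int.quotientSpanNatEquivZMod ℓ).symm
  let _ : Fintype (ℤ ⧸ P) := Fintype.ofEquiv (ZMod ℓ) e.toEquiv
  have hcard : Fintype.card (ℤ ⧸ P) = ℓ := by
    rw [← Fintype.card_congr e.toEquiv, ZMod.card]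
  have : Algebra.IsIntegral (ℤ ⧸ P) (integralClosure ℤ Ω ⧸ center A) :=
    Ideal.Quotient.algebra_isIntegral_of_liesOver (center A) P
  have : Algebra.IsAlgebraic (ℤ ⧸ P) (integralClosure ℤ Ω ⧸ center A) :=
    Algebra.IsIntegral.isAlgebraic
  -- the automorphism of the residue field
  let f : (integralClosure ℤ Ω ⧸ center A) ≃+* (integralClosure ℤ Ω ⧸ center A) :=
    Ideal.quotientEquiv (center A) (center A) (MulSemiringAction.toRingEquiv _ _ τ) (by
      conv_lhs => rw [← smul_center_eq hτ]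
      rw [Ideal.pointwise_smul_def]
      rfl)
  have hf : ∀ b : integralClosure ℤ Ω,
      f (Ideal.Quotient.mk (center A) b) = Ideal.Quotient.mk (center A) (τ • b) :=
    fun b => rfl
  let f' : (integralClosure ℤ Ω ⧸ center A) ≃ₐ[ℤ ⧸ P] (integralClosure ℤ Ω ⧸ center A) :=
    { f with
      commutes' := by
        intro r
        obtain ⟨n, rfl⟩ := Ideal.Quotient.mk_surjective r
        have h : ∀ g : ℤ →+* (integralClosure ℤ Ω ⧸ center A), g n = (n : _) := fun g => by simp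
        have h1 := h (((f : (integralClosure ℤ Ω ⧸ center A) →+* _).comp
          (algebraMap (ℤ ⧸ P) (integralClosure ℤ Ω ⧸ center A))).comp (Ideal.Quotient.mk P))
        have h2 := h ((algebraMap (ℤ ⧸ P) (integralClosure ℤ Ω ⧸ center A)).comp
          (Ideal.Quotient.mk P))
        exact h1.trans h2.symm }
  -- generators of the integers of `L`
  have hfin : Module.Finite ℤ (integralClosure ℤ L) := IsIntegralClosure.finite ℤ ℚ L _
  obtain ⟨s, hs⟩ := hfin.fg_top
  let j : integralClosure ℤ L →ₐ[ℤ] integralClosure ℤ Ω :=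
    (L.val.restrictScalars ℤ).mapIntegralClosure
  let S : Set (integralClosure ℤ Ω ⧸ center A) :=
    (fun x => Ideal.Quotient.mk (center A) (j x)) '' (s : Set (integralClosure ℤ L))
  obtain ⟨n, hn⟩ := exists_pow_card_of_finite f' S (s.finite_toSet.image _)
  have hmem : ∀ x : integralClosure ℤ L, Ideal.Quotient.mk (center A) (j x) ∈
      IntermediateField.adjoin (ℤ ⧸ P) S := by
    intro x
    have hx : x ∈ Submodule.span ℤ (s : Set (integralClosure ℤ L)) := hs ▸ Submodule.mem_top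
    induction hx using Submodule.span_induction with
    | mem x hx => exact IntermediateField.subset_adjoin _ _ ⟨x, hx, rfl⟩
    | zero => rw [map_zero, map_zero]; exact zero_mem _
    | add x y _ _ hx hy => rw [map_add, map_add]; exact add_mem hx hy
    | smul a x _ hx => rw [map_zsmul, map_zsmul]; exact zsmul_mem hx a
  refine ⟨n, fun x hx => ?_⟩
  have hx' : IsIntegral ℤ (⟨(x : Ω), hx⟩ : L) := by
    have : IsIntegral ℤ ((L.val.restrictScalars ℤ) (⟨(x : Ω), hx⟩ : L)) := x.2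
    exact (isIntegral_algHom_iff (L.val.restrictScalars ℤ) L.val.injective).mp this
  have h1 : j ⟨⟨(x : Ω), hx⟩, hx'⟩ = x := Subtype.ext rfl
  have h2 := hn _ (hmem ⟨⟨(x : Ω), hx⟩, hx'⟩)
  rw [h1, hcard] at h2
  rw [← Ideal.Quotient.eq, map_pow, ← h2]
  rfl

/-- **Z-DEC.** The decomposition group is topologically generated by a Frobenius element and the
inertia group. -/
theorem exists_pow_mul_inertia {A : ValuationSubring Ω} {ℓ : ℕ} (hℓ : ℓ.Prime)
    (hA : A.LiesOverPrime ℓ) {Φ : Ω ≃ₐ[ℚ] Ω} (hΦ : A.IsFrobeniusAt Φ ℓ)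
    {τ : Ω ≃ₐ[ℚ] Ω} (hτ : τ ∈ A.decompositionSubgroup ℚ) (L : IntermediateField ℚ Ω)
    [FiniteDimensional ℚ L] :
    ∃ n : ℕ, ∃ s ∈ A.inertiaSubgroupIn ℚ, ∀ x ∈ L, τ x = (Φ ^ n * s) x := by
  have hτA : τ • A = A := hτ
  have hΦA : Φ • A = A := hΦ.mem_decompositionSubgroup
  obtain ⟨n, hn⟩ := exists_pow_smul_sub hℓ hA hτA L
  have hΦn : (Φ ^ n)⁻¹ • A = A := by
    have h1 : Φ ^ n • A = A := by
      have : Φ ^ n ∈ MulAction.stabilizer (Ω ≃ₐ[ℚ] Ω) A := pow_mem (show Φ ∈ _ from hΦA) n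
      exact this
    rw [inv_smul_eq_iff, h1]
  obtain ⟨s, hs, hsL⟩ := Fermat.Agent.ExtVan.exists_lift_inertia L hℓ hA ((Φ ^ n)⁻¹ * τ) (by
    intro x hx
    have h1 : τ • x - Φ ^ n • x ∈ center A := by
      have := (center A).sub_mem (hn x hx) (isFrobeniusAt_pow_smul_sub hΦ n x)
      rwa [sub_sub_sub_cancel_right] at this
    have h2 := smul_mem_center hΦn h1
    rw [smul_sub, inv_smul_smul, ← mul_smul] at h2
    exact h2)
  refine ⟨n, s, hs, fun x hx => ?_⟩
  rw [AlgEquiv.mul_apply, hsL x hx]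
  show τ x = ((Φ ^ n) * ((Φ ^ n)⁻¹ * τ)) x
  rw [mul_inv_cancel_left]

end Fermat.Agent.ZEnd
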